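-- Renamed copy (namespace only) of helper834's Local834/Profinite.lean (origin/helper834 @b107315); used by H366/LocalD.
import Mathlib
import Fermat.Agent.S54.FrobLift

/-!
# S14 local lemmas (helper834) — profinite actions of closed subgroups of `Gal(ℚ̄/ℚ)` on `ℤ̄`

For a closed subgroup `H` of the absolute Galois group acting on the ring `ℤ̄` of all algebraic
integers we record, in elementary (instance-free) form,

* `exists_mem_smul_eq` : `H` acts transitively on the primes of `ℤ̄` having the same
  intersection with the ring of `H`-invariants;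
* `exists_mem_stabilizer_induces` : every ring automorphism of `ℤ̄ ⧸ Q` which fixes the
  classes of the `H`-invariants is induced by an element of `H` stabilising `Q`.
-/

set_option autoImplicit false
set_option linter.style.haveILetI false

open scoped Pointwise

namespace Fermat.Agent.S14.H366.L834

/-- The field of algebraic numbers. -/
abbrev Qb : Type := AlgebraicClosure ℚ

/-- The absolute Galois group of `ℚ`. -/
abbrev GQ : Type := Qb ≃ₐ[ℚ] Qb

/-- The ring of all algebraic integers. -/
abbrev Zb : Type := integralClosure ℤ Qb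

section closedSubgroup

variable (H : Subgroup GQ)

/-- The ring of `H`-invariant algebraic integers. -/
noncomputable abbrev Inv : Subalgebra ℤ Zb := FixedPoints.subalgebra ℤ Zb H

theorem mem_Inv_iff (x : Zb) : x ∈ Inv H ↔ ∀ σ ∈ H, σ • x = x := by
  constructor
  · intro h σ hσ
    exact h ⟨σ, hσ⟩
  · intro h σ
    exact h σ.1 σ.2

/-- The action of `H` commutes with multiplication by invariants. -/
theorem smulCommClass_Inv : SMulCommClass H (Inv H) Zb where
  smul_comm := fun σ a b => by
    show σ • ((a : Zb) * b) = (a : Zb) * σ • b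
    rw [smul_mul', a.2 σ]

theorem isInvariant_Inv :
    letI := smulCommClass_Inv H
    Algebra.IsInvariant (Inv H) Zb H := by
  letI := smulCommClass_Inv H
  exact ⟨fun b hb => ⟨⟨b, hb⟩, rfl⟩⟩

theorem compactSpace_of_isClosed (hH : IsClosed (H : Set GQ)) : CompactSpace H := by
  haveI := Fermat.Agent.S54.isGalois_algebraicClosure_rat
  haveI : Algebra.IsAlgebraic ℚ Qb := AlgebraicClosure.isAlgebraic ℚ
  exact isCompact_iff_compactSpace.mp hH.isCompact

theorem totallyDisconnectedSpace_subgroup : TotallyDisconnectedSpace H := by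
  haveI := Fermat.Agent.S54.isGalois_algebraicClosure_rat
  haveI : Algebra.IsAlgebraic ℚ Qb := AlgebraicClosure.isAlgebraic ℚ
  infer_instance

theorem continuousSMul_subgroup :
    letI : TopologicalSpace Zb := ⊥
    ContinuousSMul H Zb := by
  letI : TopologicalSpace Zb := ⊥
  haveI := Fermat.Agent.S54.continuousSMul_integralClosure
  infer_instance

/-- (T) A closed subgroup `H` acts transitively on the primes of `ℤ̄` with the same
intersection with the `H`-invariants. -/
theorem exists_mem_smul_eq (hH : IsClosed (H : Set GQ)) (Q Q' : Ideal Zb)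
    [Q.IsPrime] [Q'.IsPrime]
    (h : ∀ x : Zb, (∀ σ ∈ H, σ • x = x) → (x ∈ Q ↔ x ∈ Q')) :
    ∃ σ ∈ H, Q' = σ • Q := by
  letI : TopologicalSpace Zb := ⊥
  haveI : DiscreteTopology Zb := ⟨rfl⟩
  haveI := continuousSMul_subgroup H
  haveI := compactSpace_of_isClosed H hH
  haveI := totallyDisconnectedSpace_subgroup H
  letI := smulCommClass_Inv H
  haveI := isInvariant_Inv H
  have hPQ : Q.under (Inv H) = Q'.under (Inv H) := by
    ext x
    simp only [Ideal.mem_comap]
    exact h x.1 ((mem_Inv_iff H x.1).mp x.2)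
  obtain ⟨g, hg⟩ := Algebra.IsInvariant.exists_smul_of_under_eq_of_profinite
    (A := Inv H) (B := Zb) (G := H) Q Q' hPQ
  exact ⟨g.1, g.2, hg⟩

/-- (S) For a closed subgroup `H`, every ring automorphism of `ℤ̄ ⧸ Q` fixing the classes of
the `H`-invariants is induced by an element of `H` stabilising `Q`. -/
theorem exists_mem_stabilizer_induces (hH : IsClosed (H : Set GQ)) (Q : Ideal Zb) [Q.IsPrime]
    (φ : (Zb ⧸ Q) ≃+* (Zb ⧸ Q))
    (hφ : ∀ x : Zb, (∀ σ ∈ H, σ • x = x) →
      φ (Ideal.Quotient.mk Q x) = Ideal.Quotient.mk Q x) :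
    ∃ σ ∈ H, σ • Q = Q ∧ ∀ x : Zb, φ (Ideal.Quotient.mk Q x) = Ideal.Quotient.mk Q (σ • x) := by
  letI : TopologicalSpace Zb := ⊥
  haveI : DiscreteTopology Zb := ⟨rfl⟩
  haveI := continuousSMul_subgroup H
  haveI := compactSpace_of_isClosed H hH
  haveI := totallyDisconnectedSpace_subgroup H
  letI := smulCommClass_Inv H
  haveI := isInvariant_Inv H
  let P : Ideal (Inv H) := Q.under (Inv H)
  haveI : Q.LiesOver P := ⟨rfl⟩
  let e : (Zb ⧸ Q) ≃ₐ[Inv H ⧸ P] (Zb ⧸ Q) :=
    AlgEquiv.ofRingEquiv (f := φ) (by
      intro r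
      obtain ⟨a, rfl⟩ := Ideal.Quotient.mk_surjective r
      have h1 : algebraMap (Inv H ⧸ P) (Zb ⧸ Q) (Ideal.Quotient.mk P a) =
          Ideal.Quotient.mk Q (a : Zb) := Ideal.Quotient.algebraMap_mk_of_liesOver Q P a
      rw [h1]
      exact hφ a.1 ((mem_Inv_iff H a.1).mp a.2))
  obtain ⟨σ, hσ⟩ := Ideal.Quotient.stabilizerHom_surjective_of_profinite (G := H) P Q e
  refine ⟨σ.1.1, σ.1.2, ?_, fun x => ?_⟩
  · have := σ.2
    rw [MulAction.mem_stabilizer_iff] at this
    exact this
  · have h2 := congrArg (fun t => t (Ideal.Quotient.mk Q x)) hσ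
    simp only [Ideal.Quotient.stabilizerHom_apply] at h2
    exact h2.symm

end closedSubgroup

end Fermat.Agent.S14.H366.L834
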