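-- Renamed copy (namespace only) of helper834's Local834/Expand.lean (origin/helper834 @b107315); used by H366/LocalD.
import Mathlib
import Fermat.Agent.S14.H366.L834.Profinite

/-!
# S14 local lemmas (helper834) — expansions in powers of an algebraic element

* `valuation_le_sum_of_distinct` : if the nonzero terms of a finite sum have pairwise distinct
  valuations, every term is bounded by the valuation of the sum.
* `exists_expansion_of_invariant` : an algebraic number fixed by every automorphism fixing
  `K` and `x` is a `K`-linear combination of `1, x, …, x ^ (n - 1)`, `n` the degree of a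
  monic polynomial over `K` killing `x`.
-/

set_option autoImplicit false
set_option linter.style.haveILetI false

open scoped Pointwise
open Polynomial

namespace Fermat.Agent.S14.H366.L834

section valuation

variable {L Γ₀ : Type*} [Field L] [LinearOrderedCommGroupWithZero Γ₀] (v : Valuation L Γ₀)

/-- If the nonzero terms of a finite sum have pairwise distinct valuations, then the valuation
of each term is at most the valuation of the sum. -/
theorem valuation_le_sum_of_distinct {ι : Type*} [DecidableEq ι] (s : Finset ι) (f : ι → L)
    (hdist : ∀ i ∈ s, ∀ j ∈ s, i ≠ j → v (f i) = v (f j) → v (f i) = 0) :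
    ∀ i ∈ s, v (f i) ≤ v (∑ j ∈ s, f j) := by
  intro i hi
  obtain ⟨j, hj, hmax⟩ := Finset.exists_max_image s (fun k => v (f k)) ⟨i, hi⟩
  have hsum : v (∑ k ∈ s, f k) = v (f j) := by
    by_cases h0 : v (f j) = 0
    · have hall : ∀ k ∈ s, f k = 0 := by
        intro k hk
        have := hmax k hk
        rw [h0] at this
        exact (Valuation.zero_iff v).mp (le_antisymm this zero_le)
      rw [Finset.sum_eq_zero hall, hall j hj]
    · refine Valuation.map_sum_eq_of_lt v hj ?_
      intro k hk
      rw [Finset.mem_sdiff, Finset.mem_singleton] at hk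
      refine lt_of_le_of_ne (hmax k hk.1) ?_
      intro heq
      have := hdist k hk.1 j hj hk.2 heq
      rw [heq] at this
      exact h0 this
  rw [hsum]
  exact hmax i hi

end valuation

section expansion

variable (K : IntermediateField ℚ Qb) (x : Qb)

/-- The group of automorphisms fixing `K(x)`. -/
noncomputable def fixGroup : Subgroup GQ :=
  ((IntermediateField.adjoin K {x}).restrictScalars ℚ).fixingSubgroup

theorem isClosed_fixGroup : IsClosed (fixGroup K x : Set GQ) := by
  haveI := Fermat.Agent.S54.isGalois_algebraicClosure_rat
  exact InfiniteGalois.fixingSubgroup_isClosed _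

theorem fixGroup_apply_of_mem {ν : GQ} (hν : ν ∈ fixGroup K x) {c : Qb} (hc : c ∈ K) :
    ν c = c := by
  have h := (IntermediateField.mem_fixingSubgroup_iff _ ν).mp hν
  apply h
  show c ∈ IntermediateField.adjoin K {x}
  exact (IntermediateField.adjoin K {x}).algebraMap_mem ⟨c, hc⟩

theorem fixGroup_apply_self {ν : GQ} (hν : ν ∈ fixGroup K x) : ν x = x := by
  have h := (IntermediateField.mem_fixingSubgroup_iff _ ν).mp hν
  apply h
  show x ∈ IntermediateField.adjoin K {x}
  exact IntermediateField.mem_adjoin_simple_self K x

/-- Elements fixed by `fixGroup K x` are polynomial expressions in `x` of degree `< n` with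
coefficients in `K`, where `n` is the degree of a monic polynomial over `K` killing `x`. -/
theorem exists_expansion_of_invariant {n : ℕ} (f : Polynomial K) (hf : f.Monic)
    (hn : f.natDegree = n) (hfx : aeval x f = 0) (y : Qb)
    (hy : ∀ ν ∈ fixGroup K x, ν y = y) :
    ∃ c : ℕ → Qb, (∀ i, c i ∈ K) ∧ y = ∑ i ∈ Finset.range n, c i * x ^ i := by
  haveI := Fermat.Agent.S54.isGalois_algebraicClosure_rat
  -- `y ∈ K(x)`
  have hyE : y ∈ (IntermediateField.adjoin K {x}).restrictScalars ℚ := by
    rw [← InfiniteGalois.fixedField_fixingSubgroup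
      ((IntermediateField.adjoin K {x}).restrictScalars ℚ)]
    rintro ⟨ν, hν⟩
    exact hy ν hν
  have hyE' : y ∈ IntermediateField.adjoin K {x} := hyE
  have hint : IsIntegral K x := ⟨f, hf, hfx⟩
  have hyA : y ∈ Algebra.adjoin K {x} := by
    rw [← IntermediateField.adjoin_simple_toSubalgebra_of_isAlgebraic hint.isAlgebraic]
    exact hyE'
  rw [Algebra.adjoin_singleton_eq_range_aeval] at hyA
  obtain ⟨g, rfl⟩ := hyA
  -- reduce modulo `f`
  have hmod : aeval x g = aeval x (g %ₘ f) := by
    conv_lhs => rw [← Polynomial.modByMonic_add_div g f]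
    rw [map_add, map_mul, hfx, zero_mul, add_zero]
  by_cases hn0 : n = 0
  · -- then `f = 1` and everything is zero
    have hf1 : f = 1 := by
      apply Polynomial.eq_one_of_monic_natDegree_zero hf
      rw [hn, hn0]
    rw [hf1] at hfx
    simp at hfx
  have hdeg : (g %ₘ f).natDegree < n := by
    rw [← hn]
    apply Polynomial.natDegree_modByMonic_lt g hf
    intro h1
    rw [h1] at hn
    simp at hn
    exact hn0 hn.symm
  refine ⟨fun i => ((g %ₘ f).coeff i : Qb), fun i => ((g %ₘ f).coeff i).2, ?_⟩
  show aeval x g = _
  rw [hmod, Polynomial.aeval_eq_sum_range' hdeg]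
  apply Finset.sum_congr rfl
  intro i _
  rw [Algebra.smul_def]
  rfl

end expansion

end Fermat.Agent.S14.H366.L834
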