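-- Renamed copy (namespace only) of helper834's Local834/Dict.lean (origin/helper834 @b107315); used by H366/LocalD.
import Mathlib
import Fermat.Prelude.Def_FLTPrelim_Ramification
import Fermat.Agent.S54.FrobExists
import Fermat.Agent.S14.H366.L834.Profinite

/-!
# S14 local lemmas (helper834) — dictionary between a valuation subring of `ℚ̄` and the prime
of `ℤ̄` below it: decomposition and inertia.
-/

set_option autoImplicit false
set_option linter.style.haveILetI false

open scoped Pointwise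

namespace Fermat.Agent.S14.H366.L834

open Fermat.Agent.S54 (primeBelow mem_primeBelow primeBelow_isPrime mem_valuationSubring_iff
  isIntegral_mem_valuationSubring)

variable (A : ValuationSubring Qb)

theorem mem_primeBelow_iff_valuation_lt (b : Zb) :
    b ∈ primeBelow A ↔ A.valuation (b : Qb) < 1 := by
  rw [mem_primeBelow, ValuationSubring.mem_nonunits_iff]

theorem valuation_le_one_of_isIntegral {x : Qb} (hx : IsIntegral ℤ x) : A.valuation x ≤ 1 :=
  (A.valuation_le_one_iff x).mpr (isIntegral_mem_valuationSubring A hx)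

theorem smul_mem_primeBelow_iff_of_stab (τ : GQ) (hτ : τ • primeBelow A = primeBelow A)
    (x : Zb) : τ • x ∈ primeBelow A ↔ x ∈ primeBelow A := by
  conv_lhs => rw [← hτ]
  exact Ideal.smul_mem_pointwise_smul_iff

theorem inv_smul_primeBelow_of_stab (τ : GQ) (hτ : τ • primeBelow A = primeBelow A) :
    τ⁻¹ • primeBelow A = primeBelow A := by
  conv_lhs => rw [← hτ]
  rw [inv_smul_smul]

variable {A} {ℓ : ℕ}

/-- An automorphism stabilising the prime below `A` maps `A` into itself. -/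
theorem map_mem_of_stab (hℓ : ℓ.Prime) (hA : A.LiesOverPrime ℓ) (τ : GQ)
    (hτ : τ • primeBelow A = primeBelow A) {x : Qb} (hx : x ∈ A) : τ x ∈ A := by
  haveI : Algebra.IsAlgebraic ℚ Qb := AlgebraicClosure.isAlgebraic ℚ
  obtain ⟨b, s, hb, hs, hsA, hxs⟩ := (mem_valuationSubring_iff A ℓ hℓ hA x).mp hx
  refine (mem_valuationSubring_iff A ℓ hℓ hA (τ x)).mpr
    ⟨τ b, τ s, hb.map τ, hs.map τ, ?_, ?_⟩
  · intro h
    exact hsA ((smul_mem_primeBelow_iff_of_stab A τ hτ ⟨s, hs⟩).mp h)
  · rw [← map_mul, hxs]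

/-- An automorphism stabilising the prime below `A` lies in the decomposition group of `A`. -/
theorem mem_decompositionSubgroup_of_stab (hℓ : ℓ.Prime) (hA : A.LiesOverPrime ℓ) (τ : GQ)
    (hτ : τ • primeBelow A = primeBelow A) : τ ∈ A.decompositionSubgroup ℚ := by
  rw [MulAction.mem_stabilizer_iff]
  ext x
  rw [ValuationSubring.mem_smul_pointwise_iff_exists]
  constructor
  · rintro ⟨s, hs, rfl⟩
    exact map_mem_of_stab hℓ hA τ hτ hs
  · intro hx
    exact ⟨τ⁻¹ • x, map_mem_of_stab hℓ hA τ⁻¹ (inv_smul_primeBelow_of_stab A τ hτ) hx, by simp⟩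

/-- An automorphism stabilising the prime below `A` and acting trivially on `ℤ̄ ⧸ Q` lies in
the inertia group of `A`. -/
theorem mem_inertiaSubgroupIn_of_stab (hℓ : ℓ.Prime) (hA : A.LiesOverPrime ℓ) (τ : GQ)
    (hτ : τ • primeBelow A = primeBelow A) (h : ∀ b : Zb, τ • b - b ∈ primeBelow A) :
    τ ∈ A.inertiaSubgroupIn ℚ := by
  haveI : Algebra.IsAlgebraic ℚ Qb := AlgebraicClosure.isAlgebraic ℚ
  have hτD := mem_decompositionSubgroup_of_stab hℓ hA τ hτ
  refine ⟨⟨τ, hτD⟩, ?_, rfl⟩
  show (⟨τ, hτD⟩ : A.decompositionSubgroup ℚ) ∈ A.inertiaSubgroup ℚ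
  rw [ValuationSubring.inertiaSubgroup, MonoidHom.mem_ker]
  ext x
  show (⟨τ, hτD⟩ : A.decompositionSubgroup ℚ) • x = x
  obtain ⟨a, rfl⟩ := IsLocalRing.residue_surjective x
  obtain ⟨b, s, hb, hs, hsA, hxs⟩ := (mem_valuationSubring_iff A ℓ hℓ hA a).mp a.2
  have hbA : b ∈ A := isIntegral_mem_valuationSubring A hb
  have hsA' : s ∈ A := isIntegral_mem_valuationSubring A hs
  have hint : ∀ (y : Qb) (hy : IsIntegral ℤ y),
      (⟨τ, hτD⟩ : A.decompositionSubgroup ℚ) •
        IsLocalRing.residue A ⟨y, isIntegral_mem_valuationSubring A hy⟩ =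
      IsLocalRing.residue A ⟨y, isIntegral_mem_valuationSubring A hy⟩ := by
    intro y hy
    rw [← IsLocalRing.ResidueField.residue_smul, ← sub_eq_zero, ← map_sub,
      IsLocalRing.residue_eq_zero_iff, ← ValuationSubring.coe_mem_nonunits_iff]
    exact h ⟨y, hy⟩
  have h1 : IsLocalRing.residue A a * IsLocalRing.residue A ⟨s, hsA'⟩ =
      IsLocalRing.residue A ⟨b, hbA⟩ := by
    rw [← map_mul]
    congr 1
    exact Subtype.ext hxs
  have h2 : IsLocalRing.residue A ⟨s, hsA'⟩ ≠ 0 := by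
    rw [Ne, IsLocalRing.residue_eq_zero_iff, ← ValuationSubring.coe_mem_nonunits_iff]
    exact hsA
  have h3 := congrArg (fun z => (⟨τ, hτD⟩ : A.decompositionSubgroup ℚ) • z) h1
  simp only [smul_mul'] at h3
  rw [hint s hs, hint b hb, ← h1] at h3
  exact mul_right_cancel₀ h2 h3

end Fermat.Agent.S14.H366.L834
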