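-- Renamed copy (namespace only) of helper834's Local834/Core.lean (origin/helper834 @b107315); used by H366/LocalD.
import Mathlib
import Fermat.Prelude.Def_FLTPrelim_Ramification
import Fermat.Agent.S54.FrobExists
import Fermat.Agent.S14.H366.L834.Profinite
import Fermat.Agent.S14.H366.L834.Dict
import Fermat.Agent.S14.H366.L834.Expand

/-!
# S14 local lemmas (helper834) — the core theorem

`exists_inertia_agreeing`: let `x` be a root of a monic polynomial of degree `n` over `K` such
that no power `v x ^ i`, `0 < i < n`, is the valuation of an element of `Kˣ`, and such that all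
`K`-conjugates of `x` have the same valuation. Then every `σ₀ ∈ Gal(ℚ̄/K)` agrees on `K(x)`
with an element of the inertia group of `A` fixing `K`.
-/

set_option autoImplicit false
set_option linter.style.haveILetI false

open scoped Pointwise
open Polynomial

namespace Fermat.Agent.S14.H366.L834

open Fermat.Agent.S54 (primeBelow mem_primeBelow primeBelow_isPrime mem_valuationSubring_iff
  isIntegral_mem_valuationSubring)

theorem coe_smul_Zb (σ : GQ) (b : Zb) : ((σ • b : Zb) : Qb) = σ (b : Qb) := rfl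

section

variable (K : IntermediateField ℚ Qb) (A : ValuationSubring Qb) (x : Qb) (n : ℕ)

/-- The non-degeneracy hypothesis: `v x ^ i` is not in `v (Kˣ)` for `0 < i < n`. -/
def Indep : Prop :=
  ∀ i, 0 < i → i < n → ∀ c ∈ K, c ≠ 0 → A.valuation c ≠ A.valuation x ^ i

variable {K A x n}

theorem Indep.of_valuation_eq {x' : Qb} (h : Indep K A x n)
    (hx : A.valuation x' = A.valuation x) : Indep K A x' n := by
  intro i hi hin c hc hc0
  rw [hx]
  exact h i hi hin c hc hc0

/-- Each term of an expansion is bounded by the whole sum. -/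
theorem Indep.term_le (h : Indep K A x n) (c : ℕ → Qb) (hc : ∀ i, c i ∈ K) :
    ∀ i ∈ Finset.range n, A.valuation (c i * x ^ i) ≤
      A.valuation (∑ j ∈ Finset.range n, c j * x ^ j) := by
  apply valuation_le_sum_of_distinct
  intro i hi j hj hij heq
  by_contra hne
  have hci : c i ≠ 0 := by
    rintro h0
    apply hne
    rw [h0, zero_mul, map_zero]
  have hne' : A.valuation (c j * x ^ j) ≠ 0 := heq ▸ hne
  have hcj : c j ≠ 0 := by
    rintro h0
    apply hne'
    rw [h0, zero_mul, map_zero]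
  have hx0 : x ≠ 0 := by
    rintro h0
    rcases Nat.eq_zero_or_pos i with hi0 | hi0
    · rcases Nat.eq_zero_or_pos j with hj0 | hj0
      · exact hij (hi0.trans hj0.symm)
      · apply hne'
        rw [h0, zero_pow hj0.ne', mul_zero, map_zero]
    · apply hne
      rw [h0, zero_pow hi0.ne', mul_zero, map_zero]
  have hvx : A.valuation x ≠ 0 := (Valuation.ne_zero_iff _).mpr hx0
  rw [Finset.mem_range] at hi hj
  rw [map_mul, map_mul, map_pow, map_pow] at heq
  -- wlog i < j
  have key : ∀ (a b : ℕ), a < b → b < n → c a ≠ 0 → c b ≠ 0 →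
      A.valuation (c a) * A.valuation x ^ a = A.valuation (c b) * A.valuation x ^ b → False := by
    intro a b hab hb hca hcb he
    have hd : 0 < b - a := Nat.sub_pos_of_lt hab
    apply h (b - a) hd (lt_of_le_of_lt (Nat.sub_le b a) hb) (c a / c b)
      (K.div_mem (hc a) (hc b)) (div_ne_zero hca hcb)
    rw [map_div₀]
    have hvb : A.valuation (c b) ≠ 0 := (Valuation.ne_zero_iff _).mpr hcb
    have hpow : A.valuation x ^ b = A.valuation x ^ (b - a) * A.valuation x ^ a := by
      rw [← pow_add, Nat.sub_add_cancel hab.le]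
    rw [hpow, ← mul_assoc] at he
    have he' := mul_right_cancel₀ (pow_ne_zero a hvx) he
    rw [he', mul_comm, mul_div_assoc, div_self hvb, mul_one]
  rcases Nat.lt_or_gt_of_ne hij with hlt | hgt
  · exact key i j hlt hj hci hcj heq
  · exact key j i hgt hi hcj hci heq.symm

/-- Conjugating `x` to an element of the same valuation does not change the valuation of an
expansion. -/
theorem Indep.valuation_expansion_eq (h : Indep K A x n) {x' : Qb}
    (hx : A.valuation x' = A.valuation x) (c : ℕ → Qb) (hc : ∀ i, c i ∈ K) :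
    A.valuation (∑ j ∈ Finset.range n, c j * x' ^ j) =
      A.valuation (∑ j ∈ Finset.range n, c j * x ^ j) := by
  have h' := h.of_valuation_eq hx
  have hterm : ∀ i, A.valuation (c i * x' ^ i) = A.valuation (c i * x ^ i) := by
    intro i
    rw [map_mul, map_mul, map_pow, map_pow, hx]
  apply le_antisymm
  · apply Valuation.map_sum_le
    intro i hi
    rw [hterm]
    exact h.term_le c hc i hi
  · apply Valuation.map_sum_le
    intro i hi
    rw [← hterm]
    exact h'.term_le c hc i hi

/-- The higher terms of an integral expansion have valuation `< 1`. -/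
theorem Indep.term_lt_one (h : Indep K A x n) (c : ℕ → Qb) (hc : ∀ i, c i ∈ K)
    (hle : A.valuation (∑ j ∈ Finset.range n, c j * x ^ j) ≤ 1) :
    ∀ i ∈ Finset.range n, 0 < i → A.valuation (c i * x ^ i) < 1 := by
  intro i hi hi0
  refine lt_of_le_of_ne ((h.term_le c hc i hi).trans hle) ?_
  intro h1
  have hci : c i ≠ 0 := by
    rintro h0
    rw [h0, zero_mul, map_zero] at h1
    exact zero_ne_one h1
  rw [Finset.mem_range] at hi
  apply h i hi0 hi (c i)⁻¹ (K.inv_mem (hc i)) (inv_ne_zero hci)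
  rw [map_mul, map_pow] at h1
  rw [map_inv₀]
  exact (eq_inv_of_mul_eq_one_right h1).symm

/-- **Core theorem.** Under the non-degeneracy hypothesis, every automorphism `σ₀` fixing `K`
agrees on `K(x)` with an element of the inertia group of `A` fixing `K`. -/
theorem exists_inertia_agreeing {ℓ : ℕ} (hℓ : ℓ.Prime) (hA : A.LiesOverPrime ℓ)
    (f : Polynomial K) (hf : f.Monic) (hn : f.natDegree = n) (hfx : aeval x f = 0)
    (hI : Indep K A x n)
    (hconj : ∀ σ : GQ, (∀ c ∈ K, σ c = c) → A.valuation (σ x) = A.valuation x)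
    (σ₀ : GQ) (hσ₀ : ∀ c ∈ K, σ₀ c = c) :
    ∃ σ₂ ∈ A.inertiaSubgroupIn ℚ, (∀ c ∈ K, σ₂ c = c) ∧
      ∃ ν : GQ, (∀ c ∈ K, ν c = c) ∧ ν x = x ∧ σ₂ x = ν (σ₀ x) := by
  have hHcl := isClosed_fixGroup K x
  haveI := primeBelow_isPrime A
  -- expansions of invariants
  have hexp : ∀ y : Zb, (∀ σ ∈ fixGroup K x, σ • y = y) →
      ∃ c : ℕ → Qb, (∀ i, c i ∈ K) ∧ (y : Qb) = ∑ i ∈ Finset.range n, c i * x ^ i := by
    intro y hy
    apply exists_expansion_of_invariant K x f hf hn hfx
    intro ν hν
    exact congrArg Subtype.val (hy ν hν)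
  -- conjugation by elements fixing `K` preserves the valuation of invariants
  have hval : ∀ σ : GQ, (∀ c ∈ K, σ c = c) → ∀ y : Zb, (∀ σ ∈ fixGroup K x, σ • y = y) →
      A.valuation (σ (y : Qb)) = A.valuation (y : Qb) := by
    intro σ hσ y hy
    obtain ⟨c, hc, hyc⟩ := hexp y hy
    rw [hyc, map_sum]
    have hterm : ∀ i ∈ Finset.range n, σ (c i * x ^ i) = c i * (σ x) ^ i := by
      intro i _
      rw [map_mul, map_pow, hσ (c i) (hc i)]
    rw [Finset.sum_congr rfl hterm]
    exact hI.valuation_expansion_eq (hconj σ hσ) c hc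
  have hσ₀inv : ∀ c ∈ K, σ₀⁻¹ c = c := by
    intro c hc
    conv_lhs => rw [← hσ₀ c hc]
    exact σ₀.symm_apply_apply c
  -- Step 2: move `σ₀` into the decomposition group
  obtain ⟨ν, hνH, hν⟩ := exists_mem_smul_eq (fixGroup K x) hHcl (σ₀ • primeBelow A)
    (primeBelow A) (by
      intro y hy
      rw [Ideal.mem_pointwise_smul_iff_inv_smul_mem, mem_primeBelow_iff_valuation_lt,
        mem_primeBelow_iff_valuation_lt, coe_smul_Zb, hval σ₀⁻¹ hσ₀inv y hy])
  have hνK : ∀ c ∈ K, ν c = c := fun c hc => fixGroup_apply_of_mem K x hνH hc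
  have hνx : ν x = x := fixGroup_apply_self K x hνH
  have hσ₁Q : (ν * σ₀) • primeBelow A = primeBelow A := by
    rw [mul_smul]
    exact hν.symm
  have hσ₁K : ∀ c ∈ K, (ν * σ₀) c = c := by
    intro c hc
    rw [AlgEquiv.mul_apply, hσ₀ c hc, hνK c hc]
  -- Step 3: `ν * σ₀` acts trivially on the classes of invariants
  have htriv : ∀ y : Zb, (∀ σ ∈ fixGroup K x, σ • y = y) →
      (ν * σ₀) • y - y ∈ primeBelow A := by
    intro y hy
    rw [mem_primeBelow_iff_valuation_lt]
    obtain ⟨c, hc, hyc⟩ := hexp y hy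
    have hyle : A.valuation (∑ j ∈ Finset.range n, c j * x ^ j) ≤ 1 := by
      rw [← hyc]
      exact valuation_le_one_of_isIntegral A y.2
    have hcoe : ((((ν * σ₀) • y - y : Zb)) : Qb) =
        ∑ i ∈ Finset.range n, c i * (((ν * σ₀) x) ^ i - x ^ i) := by
      have h1 : ((((ν * σ₀) • y - y : Zb)) : Qb) = (ν * σ₀) (y : Qb) - (y : Qb) := rfl
      rw [h1, hyc, map_sum, ← Finset.sum_sub_distrib]
      apply Finset.sum_congr rfl
      intro i _
      rw [map_mul, map_pow, hσ₁K (c i) (hc i), mul_sub]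
    rw [hcoe]
    apply Valuation.map_sum_lt' _ zero_lt_one
    intro i hi
    rcases Nat.eq_zero_or_pos i with hi0 | hi0
    · rw [hi0, pow_zero, pow_zero, sub_self, mul_zero, map_zero]
      exact zero_lt_one
    · have h2 := hI.term_lt_one c hc hyle i hi hi0
      refine lt_of_le_of_lt ?_ h2
      rw [map_mul, map_mul]
      gcongr
      refine (Valuation.map_sub _ _ _).trans ?_
      rw [map_pow, map_pow, hconj (ν * σ₀) hσ₁K, max_self]
  -- the automorphism of the residue ring induced by `ν * σ₀`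
  let φ : (Zb ⧸ primeBelow A) ≃+* (Zb ⧸ primeBelow A) :=
    (Ideal.Quotient.stabilizerHom (primeBelow A) ((primeBelow A).under ℤ) GQ
      ⟨ν * σ₀, hσ₁Q⟩).toRingEquiv
  have hφ : ∀ b : Zb, φ (Ideal.Quotient.mk (primeBelow A) b) =
      Ideal.Quotient.mk (primeBelow A) ((ν * σ₀) • b) := fun b => rfl
  obtain ⟨τ, hτH, hτQ, hτ⟩ := exists_mem_stabilizer_induces (fixGroup K x) hHcl (primeBelow A) φ
    (by
      intro y hy
      rw [hφ, Ideal.Quotient.eq]
      exact htriv y hy)
  have hτK : ∀ c ∈ K, τ c = c := fun c hc => fixGroup_apply_of_mem K x hτH hc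
  have hτx : τ x = x := fixGroup_apply_self K x hτH
  have hτinvQ := inv_smul_primeBelow_of_stab A τ hτQ
  have hτinvK : ∀ c ∈ K, τ⁻¹ c = c := by
    intro c hc
    conv_lhs => rw [← hτK c hc]
    exact τ.symm_apply_apply c
  have hτinvx : τ⁻¹ x = x := by
    conv_lhs => rw [← hτx]
    exact τ.symm_apply_apply x
  refine ⟨τ⁻¹ * (ν * σ₀), ?_, ?_, τ⁻¹ * ν, ?_, ?_, ?_⟩
  · apply mem_inertiaSubgroupIn_of_stab hℓ hA
    · rw [mul_smul, hσ₁Q, hτinvQ]
    · intro b
      have h1 : (ν * σ₀) • b - τ • b ∈ primeBelow A := by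
        rw [← Ideal.Quotient.eq, ← hφ, hτ]
      have h2 : (τ⁻¹ * (ν * σ₀)) • b - b = τ⁻¹ • ((ν * σ₀) • b - τ • b) := by
        rw [smul_sub, inv_smul_smul, mul_smul]
      rw [h2]
      exact (smul_mem_primeBelow_iff_of_stab A τ⁻¹ hτinvQ _).mpr h1
  · intro c hc
    rw [AlgEquiv.mul_apply, hσ₁K c hc, hτinvK c hc]
  · intro c hc
    rw [AlgEquiv.mul_apply, hνK c hc, hτinvK c hc]
  · rw [AlgEquiv.mul_apply, hνx, hτinvx]
  · rfl

end

end Fermat.Agent.S14.H366.L834
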